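import Mathlib
import Fermat.Agent.Lib.Cheb.Spec
import Fermat.Agent.Lib.EulerProd.EulerNF

/-!
# CHEB Tier 2, piece EP of CYC: the twisted Euler product

`Fermat.Agent.Lib.Cheb.H343.eulerProduct` is, verbatim, the statement
`Fermat.Agent.Lib.Cheb.H221.EulerProductStatement` of helper221's CYC skeleton:
for a number field `F`, a Dirichlet character `χ` mod `m` and real `s > 1`,

  `∏_𝔭 (1 - χ(N𝔭) N𝔭^(-s))⁻¹ = LSeries (n ↦ χ n * idealCount F n) s`.

Auxiliary API: `twTerm` (the completely multiplicative function `I ↦ χ(N I) N(I)^(-s)` on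
ideals), `summable_norm_twTerm`, `tsum_twTerm_eq_LSeries`, `hasProd_twTerm_primeIdeal`,
`heightOneEquiv`.
-/

set_option autoImplicit false
set_option linter.style.haveILetI false
set_option linter.unusedSectionVars false

namespace Fermat.Agent.Lib.Cheb.H343

open NumberField Ideal IsDedekindDomain Filter Topology
open Fermat.Agent.Lib.EulerProd

variable (F : Type) [Field F] [NumberField F] (m : ℕ) [NeZero m] (χ : DirichletCharacter ℂ m)

/-- The twisted term `χ(N I) · N(I)^(-s)` on ideals. -/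
noncomputable def twTerm (s : ℝ) (I : Ideal (𝓞 F)) : ℂ :=
  χ ((absNorm I : ℕ) : ZMod m) * ((((absNorm I : ℕ) : ℝ) ^ (-s) : ℝ) : ℂ)

variable {F m}

theorem twTerm_zero {s : ℝ} (hs : s ≠ 0) : twTerm F m χ s 0 = 0 := by
  have h0 : absNorm (0 : Ideal (𝓞 F)) = 0 := by
    rw [Ideal.zero_eq_bot, Ideal.absNorm_bot]
  rw [twTerm, h0, Nat.cast_zero, Nat.cast_zero, Real.zero_rpow (neg_ne_zero.mpr hs),
    Complex.ofReal_zero, mul_zero]

theorem twTerm_one (s : ℝ) : twTerm F m χ s 1 = 1 := by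
  have h1 : absNorm (1 : Ideal (𝓞 F)) = 1 := by
    rw [Ideal.one_eq_top, Ideal.absNorm_top]
  rw [twTerm, h1, Nat.cast_one, Nat.cast_one, Real.one_rpow, Complex.ofReal_one, mul_one,
    map_one]

theorem twTerm_mul (s : ℝ) (I J : Ideal (𝓞 F)) :
    twTerm F m χ s (I * J) = twTerm F m χ s I * twTerm F m χ s J := by
  simp only [twTerm, map_mul, Nat.cast_mul]
  rw [Real.mul_rpow (Nat.cast_nonneg _) (Nat.cast_nonneg _), Complex.ofReal_mul]
  ring

theorem norm_twTerm_le (s : ℝ) (I : Ideal (𝓞 F)) :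
    ‖twTerm F m χ s I‖ ≤ ((absNorm I : ℕ) : ℝ) ^ (-s) := by
  rw [twTerm, norm_mul, Complex.norm_real, Real.norm_eq_abs,
    abs_of_nonneg (Real.rpow_nonneg (Nat.cast_nonneg _) _)]
  calc ‖χ ((absNorm I : ℕ) : ZMod m)‖ * ((absNorm I : ℕ) : ℝ) ^ (-s)
      ≤ 1 * ((absNorm I : ℕ) : ℝ) ^ (-s) :=
        mul_le_mul_of_nonneg_right (DirichletCharacter.norm_le_one χ _)
          (Real.rpow_nonneg (Nat.cast_nonneg _) _)
    _ = _ := one_mul _

theorem summable_norm_twTerm {s : ℝ} (hs : 1 < s) :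
    Summable (fun I : Ideal (𝓞 F) => ‖twTerm F m χ s I‖) :=
  Summable.of_nonneg_of_le (fun _ => norm_nonneg _) (norm_twTerm_le χ s)
    (summable_absNorm_rpow F hs)

theorem summable_twTerm {s : ℝ} (hs : 1 < s) :
    Summable (fun I : Ideal (𝓞 F) => twTerm F m χ s I) :=
  (summable_norm_twTerm χ hs).of_norm

/-- The fibre sums of `twTerm` over the norm map. -/
theorem tsum_fiber_twTerm (s : ℝ) (n : ℕ) :
    ∑' I : {I : Ideal (𝓞 F) // absNorm I = n}, twTerm F m χ s I.1 =
      (Nat.card {I : Ideal (𝓞 F) // absNorm I = n} : ℂ) *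
        (χ (n : ZMod m) * (((n : ℝ) ^ (-s) : ℝ) : ℂ)) := by
  haveI : Finite {I : Ideal (𝓞 F) // absNorm I = n} := finite_setOfPred_absNorm_eq n
  haveI : Fintype {I : Ideal (𝓞 F) // absNorm I = n} := Fintype.ofFinite _
  rw [tsum_fintype, Finset.sum_congr rfl (fun I _ => by rw [twTerm, I.2]), Finset.sum_const,
    Finset.card_univ, Nat.card_eq_fintype_card, nsmul_eq_mul]

/-- The sum of `twTerm` over all ideals is the `L`-series of `n ↦ χ(n) · idealCount F n`. -/
theorem tsum_twTerm_eq_LSeries {s : ℝ} (hs : 1 < s) :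
    ∑' I : Ideal (𝓞 F), twTerm F m χ s I =
      LSeries (fun n => χ (n : ZMod m) * (Spec.idealCount F n : ℂ)) (s : ℂ) := by
  have hsum := summable_twTerm (F := F) χ hs
  rw [← (Equiv.sigmaFiberEquiv (fun I : Ideal (𝓞 F) => absNorm I)).tsum_eq]
  rw [← (Equiv.sigmaFiberEquiv (fun I : Ideal (𝓞 F) => absNorm I)).summable_iff] at hsum
  have hfib : ∀ n : ℕ, Summable fun c : {I : Ideal (𝓞 F) // absNorm I = n} =>
      ((fun I : Ideal (𝓞 F) => twTerm F m χ s I) ∘
        (Equiv.sigmaFiberEquiv (fun I : Ideal (𝓞 F) => absNorm I))) ⟨n, c⟩ := by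
    intro n
    haveI : Finite {I : Ideal (𝓞 F) // absNorm I = n} := finite_setOfPred_absNorm_eq n
    exact Summable.of_finite
  have := Summable.tsum_sigma' hfib hsum
  simp only [Function.comp_apply] at this
  rw [this, LSeries]
  refine tsum_congr fun n => ?_
  simp only [Equiv.sigmaFiberEquiv_apply]
  rw [tsum_fiber_twTerm χ s n, LSeries.term_def]
  split_ifs with hn
  · subst hn
    have hs0 : -s ≠ 0 := by linarith
    simp [Real.zero_rpow hs0]
  · rw [Complex.ofReal_cpow (Nat.cast_nonneg _), Complex.ofReal_neg, Complex.cpow_neg,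
      Complex.ofReal_natCast, div_eq_mul_inv, Spec.idealCount]
    ring

/-- Euler product of the twisted series over the prime ideals (as a subtype of the ideals). -/
theorem hasProd_twTerm_primeIdeal {s : ℝ} (hs : 1 < s) :
    HasProd (fun 𝔭 : PrimeIdeal F => (1 - twTerm F m χ s 𝔭.1)⁻¹)
      (LSeries (fun n => χ (n : ZMod m) * (Spec.idealCount F n : ℂ)) (s : ℂ)) := by
  rw [← tsum_twTerm_eq_LSeries χ hs]
  exact hasProd_one_sub_inv (twTerm_zero χ (by linarith)) (twTerm_one χ s) (twTerm_mul χ s)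
    (summable_norm_twTerm χ hs)

variable (F)

/-- Height-one primes of `𝓞 F` are the prime elements of the monoid of ideals. -/
noncomputable def heightOneEquiv : HeightOneSpectrum (𝓞 F) ≃ PrimeIdeal F where
  toFun v := ⟨v.asIdeal, v.prime⟩
  invFun 𝔭 := ⟨𝔭.1, 𝔭.isPrime, 𝔭.ne_bot⟩
  left_inv _ := rfl
  right_inv _ := rfl

@[simp] theorem heightOneEquiv_apply_coe (v : HeightOneSpectrum (𝓞 F)) :
    (heightOneEquiv F v).1 = v.asIdeal := rfl

@[simp] theorem heightOneEquiv_symm_asIdeal (𝔭 : PrimeIdeal F) :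
    ((heightOneEquiv F).symm 𝔭).asIdeal = 𝔭.1 := rfl

variable {F}

/-- **EP**: the twisted Euler product over `HeightOneSpectrum (𝓞 F)`; verbatim
`Fermat.Agent.Lib.Cheb.H221.EulerProductStatement`. -/
theorem eulerProduct :
    ∀ (F : Type) [Field F] [NumberField F] (m : ℕ) [NeZero m] (χ : DirichletCharacter ℂ m)
      (s : ℝ), 1 < s →
      HasProd (fun 𝔭 : HeightOneSpectrum (𝓞 F) =>
        (1 - χ (Ideal.absNorm 𝔭.asIdeal : ZMod m) *
          (((Ideal.absNorm 𝔭.asIdeal : ℝ) ^ (-s) : ℝ) : ℂ))⁻¹)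
        (LSeries (fun n => χ (n : ZMod m) * (Spec.idealCount F n : ℂ)) (s : ℂ)) := by
  intro F _ _ m _ χ s hs
  have h := hasProd_twTerm_primeIdeal (F := F) χ hs
  rw [← (heightOneEquiv F).hasProd_iff] at h
  exact h

end Fermat.Agent.Lib.Cheb.H343
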