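import Mathlib
import Fermat.Agent.Lib.Cheb.Spec
import Fermat.Agent.Lib.EulerProd.PrimeSum

/-!
# CHEB pieces Z and B0 in the frozen `Spec` shape

* `Fermat.Agent.Lib.Cheb.H343.primeSum : Spec.PrimeSumStatement`
* `Fermat.Agent.Lib.Cheb.H343.primeCountBound : Spec.PrimeCountBoundStatement`
-/

set_option autoImplicit false
set_option linter.style.haveILetI false
set_option linter.unusedSectionVars false

namespace Fermat.Agent.Lib.Cheb.H343

open NumberField Ideal Filter Topology Finset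
open Fermat.Agent.Lib.EulerProd

variable (F : Type) [Field F] [NumberField F]

/-- The fibre type of `Spec.primeCount`. -/
abbrev PrimeFibre (p : ℕ) : Type := {𝔮 : Ideal (𝓞 F) // 𝔮.IsPrime ∧ Ideal.absNorm 𝔮 = p}

instance instFinitePrimeFibre (p : ℕ) : Finite (PrimeFibre F p) := by
  haveI : Finite {I : Ideal (𝓞 F) // absNorm I = p} := finite_setOfPred_absNorm_eq p
  exact Finite.of_injective
    (fun 𝔮 : PrimeFibre F p => (⟨𝔮.1, 𝔮.2.2⟩ : {I : Ideal (𝓞 F) // absNorm I = p}))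
    (fun a b h => Subtype.ext (congrArg (fun x => x.1) h))

theorem primeCount_eq (p : ℕ) : Spec.primeCount F p = Nat.card (PrimeFibre F p) := rfl

variable {F}

theorem PrimeFibre.prime {p : ℕ} (hp : p ≠ 0) (𝔮 : PrimeFibre F p) : Prime 𝔮.1 := by
  have hne : 𝔮.1 ≠ ⊥ := by
    intro h
    have := 𝔮.2.2
    rw [h, Ideal.absNorm_bot] at this
    exact hp this.symm
  exact (Ideal.prime_iff_isPrime hne).mpr 𝔮.2.1

variable (F)

/-- Degree-one primes, fibred over their norm. -/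
noncomputable def degOneEquiv : degOne F ≃ Σ p : Nat.Primes, PrimeFibre F p where
  toFun 𝔭 := ⟨⟨absNorm 𝔭.1.1, 𝔭.2⟩, ⟨𝔭.1.1, 𝔭.1.isPrime, rfl⟩⟩
  invFun x := ⟨⟨x.2.1, PrimeFibre.prime x.1.2.ne_zero x.2⟩, by
    show (absNorm x.2.1).Prime
    rw [x.2.2.2]
    exact x.1.2⟩
  left_inv 𝔭 := rfl
  right_inv x := by
    obtain ⟨⟨p, hp⟩, 𝔮, hq, h⟩ := x
    dsimp only at h
    subst h
    rfl

theorem primeSumOne_eq_tsum_primes {s : ℝ} (hs : 1 < s) :
    primeSumOne F s =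
      ∑' p : Nat.Primes, (Spec.primeCount F p : ℝ) * ((p : ℕ) : ℝ) ^ (-s) := by
  have hsum : Summable (fun 𝔭 : degOne F => 𝔭.1.x s) := summable_x_subtype F hs _
  have h1 : primeSumOne F s =
      ∑' x : (Σ p : Nat.Primes, PrimeFibre F p), (((x.1 : ℕ) : ℝ)) ^ (-s) := by
    rw [primeSumOne, ← (degOneEquiv F).tsum_eq]
    rfl
  have hsum' : Summable (fun x : (Σ p : Nat.Primes, PrimeFibre F p) =>
      (((x.1 : ℕ) : ℝ)) ^ (-s)) := by
    rw [← (degOneEquiv F).summable_iff]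
    exact hsum
  rw [h1, Summable.tsum_sigma' (fun p => Summable.of_finite) hsum']
  refine tsum_congr fun p => ?_
  show ∑' (_ : PrimeFibre F p), (((p : ℕ) : ℝ)) ^ (-s) = _
  rw [tsum_const, nsmul_eq_mul, primeCount_eq]

/-- **Z** (= F1 = W1). -/
theorem primeSum : Spec.PrimeSumStatement := by
  intro F _ _
  obtain ⟨C, hC⟩ := exists_primeSumOne_bound F
  refine ⟨C, fun s hs1 hs2 => ?_⟩
  have h := hC s hs1 hs2
  rw [primeSumOne_eq_tsum_primes F hs1] at h
  exact h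

/-- **B0**: at most `[F : ℚ]` primes of norm `p`. -/
theorem primeCountBound : Spec.PrimeCountBoundStatement := by
  classical
  intro F _ _ p
  rw [primeCount_eq]
  have hn : 1 ≤ Module.finrank ℚ F := Module.finrank_pos
  rcases Nat.eq_zero_or_pos p with rfl | hp
  · -- only `⊥` has norm `0`
    have : Subsingleton (PrimeFibre F 0) := by
      refine ⟨fun a b => Subtype.ext ?_⟩
      rw [Ideal.absNorm_eq_zero_iff.mp a.2.2, Ideal.absNorm_eq_zero_iff.mp b.2.2]
    exact le_trans (Finite.card_le_one_iff_subsingleton.mpr this) hn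
  · rcases isEmpty_or_nonempty (PrimeFibre F p) with he | ⟨⟨𝔮₀⟩⟩
    · rw [Nat.card_of_isEmpty]
      exact Nat.zero_le _
    · let 𝔭₀ : PrimeIdeal F := ⟨𝔮₀.1, PrimeFibre.prime hp.ne' 𝔮₀⟩
      obtain ⟨hq, hmem, k, hk1, -, hk⟩ := 𝔭₀.below_spec
      have hpk : p = 𝔭₀.below ^ k := by rw [← hk]; exact 𝔮₀.2.2.symm
      have hall : ∀ 𝔮 : PrimeFibre F p, ((𝔭₀.below : ℕ) : 𝓞 F) ∈ 𝔮.1 := by
        intro 𝔮
        have h1 : ((absNorm 𝔮.1 : ℕ) : 𝓞 F) ∈ 𝔮.1 := absNorm_mem 𝔮.1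
        have h2 : absNorm 𝔮.1 = 𝔭₀.below ^ k := 𝔮.2.2.trans hpk
        rw [h2, Nat.cast_pow] at h1
        exact 𝔮.2.1.mem_of_pow_mem k h1
      haveI : Fintype (PrimeFibre F p) := Fintype.ofFinite _
      let g : PrimeFibre F p → PrimeIdeal F := fun 𝔮 => ⟨𝔮.1, PrimeFibre.prime hp.ne' 𝔮⟩
      have hg : Function.Injective g := fun a b h =>
        Subtype.ext (congrArg (fun x : PrimeIdeal F => x.1) h)
      have hcard := card_le_finrank_of_mem hq (Finset.univ.image g) (fun 𝔭 h𝔭 => by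
        obtain ⟨𝔮, -, rfl⟩ := Finset.mem_image.mp h𝔭
        exact hall 𝔮)
      rw [Finset.card_image_of_injective _ hg, Finset.card_univ] at hcard
      rwa [Nat.card_eq_fintype_card]

end Fermat.Agent.Lib.Cheb.H343
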