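import Mathlib
import Fermat.Agent.Lib.Cheb.Spec
import Fermat.Agent.Lib.Cheb.H343.PrimeSumZ
import Fermat.Agent.Lib.Cheb.H343.CycEP

/-!
# CHEB Tier 2, piece DEG of CYC: twisted prime-ideal sums versus sums over rational primes

`Fermat.Agent.Lib.Cheb.H343.twistedPrimeSum` is, verbatim, the statement
`Fermat.Agent.Lib.Cheb.H221.TwistedPrimeSumStatement` of helper221's CYC skeleton
(the hypothesis `Spec.PrimeSumStatement` is not used): on `(1, 2]`,

  `‖∑_𝔭 χ(N𝔭) N𝔭^(-s) - ∑_p χ(p) primeCount F p p^(-s)‖ ≤ C`,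

with the explicit constant `C = degTwoBound F`, together with the summability of
`p ↦ primeCount F p * p^(-s)`.
-/

set_option autoImplicit false
set_option linter.style.haveILetI false
set_option linter.unusedSectionVars false

namespace Fermat.Agent.Lib.Cheb.H343

open NumberField Ideal IsDedekindDomain Filter Topology
open Fermat.Agent.Lib.EulerProd

variable (F : Type) [Field F] [NumberField F] (m : ℕ) [NeZero m] (χ : DirichletCharacter ℂ m)

/-- Summability of `p ↦ primeCount F p * p^(-s)` over the rational primes. -/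
theorem summable_primeCount_mul_rpow {s : ℝ} (hs : 1 < s) :
    Summable (fun p : Nat.Primes => (Spec.primeCount F p : ℝ) * ((p : ℕ) : ℝ) ^ (-s)) := by
  have hsum : Summable (fun 𝔭 : degOne F => 𝔭.1.x s) := summable_x_subtype F hs _
  have hsum' : Summable (fun x : (Σ p : Nat.Primes, PrimeFibre F p) =>
      (((x.1 : ℕ) : ℝ)) ^ (-s)) := by
    rw [← (degOneEquiv F).summable_iff]
    exact hsum
  have h2 := (summable_sigma_of_nonneg (fun x => by positivity)).mp hsum'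
  refine h2.2.congr fun p => ?_
  show ∑' (_ : PrimeFibre F p), (((p : ℕ) : ℝ)) ^ (-s) = _
  rw [tsum_const, nsmul_eq_mul, primeCount_eq]

variable {F m}

theorem norm_twTerm_le_x (s : ℝ) (𝔭 : PrimeIdeal F) : ‖twTerm F m χ s 𝔭.1‖ ≤ 𝔭.x s :=
  norm_twTerm_le χ s 𝔭.1

theorem summable_norm_twTerm_primeIdeal {s : ℝ} (hs : 1 < s) :
    Summable (fun 𝔭 : PrimeIdeal F => ‖twTerm F m χ s 𝔭.1‖) :=
  Summable.of_nonneg_of_le (fun _ => norm_nonneg _) (norm_twTerm_le_x χ s) (summable_x F hs)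

theorem summable_twTerm_primeIdeal {s : ℝ} (hs : 1 < s) :
    Summable (fun 𝔭 : PrimeIdeal F => twTerm F m χ s 𝔭.1) :=
  (summable_norm_twTerm_primeIdeal χ hs).of_norm

theorem twTerm_fibre (s : ℝ) (x : Σ p : Nat.Primes, PrimeFibre F p) :
    twTerm F m χ s ((degOneEquiv F).symm x).1.1 =
      χ ((x.1 : ℕ) : ZMod m) * (((((x.1 : ℕ) : ℝ)) ^ (-s) : ℝ) : ℂ) := by
  show twTerm F m χ s x.2.1 = _
  rw [twTerm, x.2.2.2]

/-- The twisted sum over the degree-one primes, fibred over the rational primes. -/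
theorem tsum_degOne_twTerm {s : ℝ} (hs : 1 < s) :
    ∑' 𝔭 : degOne F, twTerm F m χ s 𝔭.1.1 =
      ∑' p : Nat.Primes, χ ((p : ℕ) : ZMod m) *
        (((Spec.primeCount F p : ℝ) * ((p : ℕ) : ℝ) ^ (-s) : ℝ) : ℂ) := by
  have hsum : Summable (fun 𝔭 : degOne F => twTerm F m χ s 𝔭.1.1) :=
    (summable_twTerm_primeIdeal χ hs).subtype _
  have h1 : ∑' 𝔭 : degOne F, twTerm F m χ s 𝔭.1.1 =
      ∑' x : (Σ p : Nat.Primes, PrimeFibre F p),
        χ ((x.1 : ℕ) : ZMod m) * (((((x.1 : ℕ) : ℝ)) ^ (-s) : ℝ) : ℂ) := by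
    rw [← (degOneEquiv F).symm.tsum_eq]
    exact tsum_congr fun x => twTerm_fibre χ s x
  have hsum' : Summable (fun x : (Σ p : Nat.Primes, PrimeFibre F p) =>
      χ ((x.1 : ℕ) : ZMod m) * (((((x.1 : ℕ) : ℝ)) ^ (-s) : ℝ) : ℂ)) := by
    rw [← (degOneEquiv F).symm.summable_iff] at hsum
    exact hsum.congr fun x => twTerm_fibre χ s x
  rw [h1, Summable.tsum_sigma' (fun p => Summable.of_finite) hsum']
  refine tsum_congr fun p => ?_
  show ∑' (_ : PrimeFibre F p), χ ((p : ℕ) : ZMod m) * (((((p : ℕ) : ℝ)) ^ (-s) : ℝ) : ℂ) = _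
  rw [tsum_const, nsmul_eq_mul, primeCount_eq, Complex.ofReal_mul, Complex.ofReal_natCast]
  ring

/-- The twisted sum over the primes of degree `≥ 2` is bounded by `degTwoBound F`. -/
theorem norm_tsum_compl_degOne_twTerm_le {s : ℝ} (hs : 1 < s) :
    ‖∑' 𝔭 : ((degOne F)ᶜ : Set (PrimeIdeal F)), twTerm F m χ s 𝔭.1.1‖ ≤ degTwoBound F := by
  have hn : Summable (fun 𝔭 : ((degOne F)ᶜ : Set (PrimeIdeal F)) => ‖twTerm F m χ s 𝔭.1.1‖) :=
    (summable_norm_twTerm_primeIdeal χ hs).subtype _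
  refine (norm_tsum_le_tsum_norm hn).trans ?_
  refine le_trans ?_ (tsum_compl_degOne_le F hs)
  exact hn.tsum_le_tsum (fun 𝔭 => norm_twTerm_le_x χ s 𝔭.1) (summable_x_subtype F hs _)

/-- The twisted sum over all primes versus the twisted sum over rational primes. -/
theorem norm_tsum_twTerm_sub_le {s : ℝ} (hs : 1 < s) :
    ‖(∑' 𝔭 : PrimeIdeal F, twTerm F m χ s 𝔭.1) -
      ∑' p : Nat.Primes, χ ((p : ℕ) : ZMod m) *
        (((Spec.primeCount F p : ℝ) * ((p : ℕ) : ℝ) ^ (-s) : ℝ) : ℂ)‖ ≤ degTwoBound F := by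
  rw [← (summable_twTerm_primeIdeal χ hs).tsum_subtype_add_tsum_subtype_compl (degOne F),
    tsum_degOne_twTerm χ hs, add_sub_cancel_left]
  exact norm_tsum_compl_degOne_twTerm_le χ hs

/-- **DEG**: verbatim `Fermat.Agent.Lib.Cheb.H221.TwistedPrimeSumStatement`. -/
theorem twistedPrimeSum :
    Spec.PrimeSumStatement →
    ∀ (F : Type) [Field F] [NumberField F] (m : ℕ) [NeZero m] (χ : DirichletCharacter ℂ m),
      ∃ C : ℝ, ∀ s : ℝ, 1 < s → s ≤ 2 →
        Summable (fun p : Nat.Primes => (Spec.primeCount F p : ℝ) * (p : ℝ) ^ (-s)) ∧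
        ‖(∑' 𝔭 : HeightOneSpectrum (𝓞 F), χ (Ideal.absNorm 𝔭.asIdeal : ZMod m) *
            (((Ideal.absNorm 𝔭.asIdeal : ℝ) ^ (-s) : ℝ) : ℂ)) -
          ∑' p : Nat.Primes, χ ((p : ℕ) : ZMod m) *
            (((Spec.primeCount F p : ℝ) * (p : ℝ) ^ (-s) : ℝ) : ℂ)‖ ≤ C := by
  intro _ F _ _ m _ χ
  refine ⟨degTwoBound F, fun s hs _ => ⟨summable_primeCount_mul_rpow F hs, ?_⟩⟩
  have h := norm_tsum_twTerm_sub_le (F := F) χ hs
  rw [← (heightOneEquiv F).tsum_eq] at h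
  exact h

/-- `twistedPrimeSum` without the unused hypothesis. -/
theorem twistedPrimeSum' (F : Type) [Field F] [NumberField F] (m : ℕ) [NeZero m]
    (χ : DirichletCharacter ℂ m) {s : ℝ} (hs : 1 < s) :
    ‖(∑' 𝔭 : HeightOneSpectrum (𝓞 F), χ (Ideal.absNorm 𝔭.asIdeal : ZMod m) *
        (((Ideal.absNorm 𝔭.asIdeal : ℝ) ^ (-s) : ℝ) : ℂ)) -
      ∑' p : Nat.Primes, χ ((p : ℕ) : ZMod m) *
        (((Spec.primeCount F p : ℝ) * (p : ℝ) ^ (-s) : ℝ) : ℂ)‖ ≤ degTwoBound F := by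
  have h := norm_tsum_twTerm_sub_le (F := F) χ hs
  rw [← (heightOneEquiv F).tsum_eq] at h
  exact h

end Fermat.Agent.Lib.Cheb.H343
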